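import Mathlib

/-!
# S56 / LocalModel / STRUCT, steps S1 + S2 (helper287): the inertia-fixed subring

`B/A` a finite extension of discrete valuation rings, Galois with group `Γ`
(`Algebra.IsInvariant A B Γ`, faithful action), finite residue field of `A`.
`Γ₀ := (maximalIdeal B).inertia Γ`, `B' := B^{Γ₀}` (as a subalgebra of `B` over `A`).

* `inertiaSub A B Γ`            : the subalgebra `B'`;
* `isDiscreteValuationRing_inertiaSub` : `B'` is a discrete valuation ring;
* `ramificationIdx_inertiaSub`  : `e(B'/A) = 1`;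
* `card_inertia_eq`             : `|Γ₀| = e(B/A) = e(B/B')`.

Mathlib only.
-/

set_option autoImplicit false
set_option linter.unusedSectionVars false
set_option linter.overlappingInstances false
set_option linter.unusedVariables false

open IsLocalRing

noncomputable section

namespace Fermat.Agent.S56.H287

section Basic

variable (A B : Type*) [CommRing A] [CommRing B] [Algebra A B]
  (Γ : Type*) [Group Γ] [MulSemiringAction Γ B] [SMulCommClass Γ A B]

/-- The inertia subgroup at the maximal ideal of `B`. -/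
abbrev inertiaGp [IsLocalRing B] : Subgroup Γ := (maximalIdeal B).inertia Γ

/-- The inertia-fixed subalgebra `B' = B^{Γ₀}`. -/
abbrev inertiaSub [IsLocalRing B] : Subalgebra A B :=
  FixedPoints.subalgebra A B (inertiaGp B Γ)

variable {A B Γ}

theorem mem_inertiaSub_iff [IsLocalRing B] {b : B} :
    b ∈ inertiaSub A B Γ ↔ ∀ σ ∈ inertiaGp B Γ, σ • b = b := by
  constructor
  · intro h σ hσ
    exact h ⟨σ, hσ⟩
  · intro h σ
    exact h σ.1 σ.2

/-- If `a * c = b` with `a, b` fixed and `a ≠ 0` then `c` is fixed. -/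
theorem mem_inertiaSub_of_mul_eq [IsLocalRing B] [IsDomain B] {a b c : B}
    (ha : a ∈ inertiaSub A B Γ) (hb : b ∈ inertiaSub A B Γ) (ha0 : a ≠ 0) (h : a * c = b) :
    c ∈ inertiaSub A B Γ := by
  rw [mem_inertiaSub_iff] at ha hb ⊢
  intro σ hσ
  have h1 : σ • (a * c) = σ • b := by rw [h]
  rw [smul_mul', ha σ hσ, hb σ hσ, ← h] at h1
  exact mul_left_cancel₀ ha0 h1

theorem isUnit_inertiaSub_iff [IsLocalRing B] [IsDomain B] (x : inertiaSub A B Γ) :
    IsUnit x ↔ IsUnit (x : B) := by
  constructor
  · intro h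
    exact h.map (inertiaSub A B Γ).val
  · intro h
    obtain ⟨y, hy⟩ := h.exists_right_inv
    have hx0 : (x : B) ≠ 0 := h.ne_zero
    have hymem : y ∈ inertiaSub A B Γ :=
      mem_inertiaSub_of_mul_eq x.2 (one_mem _) hx0 hy
    exact IsUnit.of_mul_eq_one ⟨y, hymem⟩ (Subtype.ext hy)

instance valuationRing_inertiaSub [IsLocalRing B] [IsDomain B] [ValuationRing B] :
    ValuationRing (inertiaSub A B Γ) := by
  rw [ValuationRing.iff_dvd_total]
  refine ⟨fun a b => ?_⟩
  by_cases ha : (a : B) = 0
  · right
    have : a = 0 := Subtype.ext ha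
    rw [this]
    exact dvd_zero b
  by_cases hb : (b : B) = 0
  · left
    have : b = 0 := Subtype.ext hb
    rw [this]
    exact dvd_zero a
  rcases ValuationRing.dvd_total (a : B) (b : B) with ⟨c, hc⟩ | ⟨c, hc⟩
  · left
    exact ⟨⟨c, mem_inertiaSub_of_mul_eq a.2 b.2 ha hc.symm⟩, Subtype.ext hc⟩
  · right
    exact ⟨⟨c, mem_inertiaSub_of_mul_eq b.2 a.2 hb hc.symm⟩, Subtype.ext hc⟩

end Basic

section DVR

variable (A B : Type*) [CommRing A] [IsDomain A] [IsDiscreteValuationRing A]
  [CommRing B] [IsDomain B] [IsDiscreteValuationRing B]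
  [Algebra A B] [Module.Finite A B] [FaithfulSMul A B]
  (Γ : Type*) [Group Γ] [MulSemiringAction Γ B] [SMulCommClass Γ A B]

instance finite_inertiaSub : Module.Finite A (inertiaSub A B Γ) := by
  have : IsNoetherian A B := isNoetherian_of_isNoetherianRing_of_finite A B
  exact Module.Finite.of_injective (inertiaSub A B Γ).val.toLinearMap Subtype.val_injective

instance isNoetherianRing_inertiaSub : IsNoetherianRing (inertiaSub A B Γ) := by
  have : IsNoetherian A (inertiaSub A B Γ) := isNoetherian_of_isNoetherianRing_of_finite A _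
  exact isNoetherian_of_tower A this

instance finite_over_inertiaSub : Module.Finite (inertiaSub A B Γ) B :=
  Module.Finite.of_restrictScalars_finite A (inertiaSub A B Γ) B

/-- A nonunit of `A` is not a unit in `B`. -/
theorem not_isUnit_algebraMap_of_mem {a : A} (ha : a ∈ maximalIdeal A) :
    ¬ IsUnit (algebraMap A B a) := by
  intro h
  have hint : Algebra.IsIntegral A B := Algebra.IsIntegral.of_finite A B
  have : IsLocalHom (algebraMap A B) := Algebra.IsIntegral.isLocalHom A B
  exact ha (isUnit_of_map_unit (algebraMap A B) a h)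

theorem not_isField_inertiaSub : ¬ IsField (inertiaSub A B Γ) := by
  intro hF
  obtain ⟨ϖ, hϖ⟩ := IsDiscreteValuationRing.exists_irreducible A
  have hmem : ϖ ∈ maximalIdeal A := hϖ.not_isUnit
  have hne : algebraMap A (inertiaSub A B Γ) ϖ ≠ 0 := by
    intro h0
    have h1 : algebraMap A B ϖ = 0 := by
      have := congrArg (inertiaSub A B Γ).val h0
      simpa using this
    exact hϖ.ne_zero (FaithfulSMul.algebraMap_injective A B (by rw [h1, map_zero]))
  obtain ⟨y, hy⟩ := hF.mul_inv_cancel hne
  apply not_isUnit_algebraMap_of_mem A B hmem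
  have := congrArg (inertiaSub A B Γ).val hy
  exact IsUnit.of_mul_eq_one (y : B) (by simpa using this)

instance isDiscreteValuationRing_inertiaSub : IsDiscreteValuationRing (inertiaSub A B Γ) := by
  have h := (IsDiscreteValuationRing.TFAE (inertiaSub A B Γ) (not_isField_inertiaSub A B Γ)).out 0 1
  exact h.mpr inferInstance

end DVR

section Galois

variable (A B : Type*) [CommRing A] [IsDomain A] [IsDiscreteValuationRing A]
  [CommRing B] [IsDomain B] [IsDiscreteValuationRing B]
  [Algebra A B] [Module.Finite A B] [FaithfulSMul A B]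
  (Γ : Type*) [Group Γ] [Finite Γ] [MulSemiringAction Γ B] [SMulCommClass Γ A B]
  [Algebra.IsInvariant A B Γ] [FaithfulSMul Γ B]

theorem isGaloisGroup_base : IsGaloisGroup Γ A B := ⟨inferInstance, inferInstance, inferInstance⟩

theorem isGaloisGroup_inertia : IsGaloisGroup (inertiaGp B Γ) (inertiaSub A B Γ) B where
  faithful := inferInstance
  commutes := inferInstance
  isInvariant := ⟨fun b hb => ⟨⟨b, hb⟩, rfl⟩⟩

instance isLocalHom_base : IsLocalHom (algebraMap A B) :=
  haveI : Algebra.IsIntegral A B := Algebra.IsIntegral.of_finite A B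
  Algebra.IsIntegral.isLocalHom A B

instance isLocalHom_top : IsLocalHom (algebraMap (inertiaSub A B Γ) B) :=
  haveI : Algebra.IsIntegral (inertiaSub A B Γ) B := Algebra.IsIntegral.of_finite _ B
  Algebra.IsIntegral.isLocalHom _ B

instance isLocalHom_bot : IsLocalHom (algebraMap A (inertiaSub A B Γ)) :=
  haveI : Algebra.IsIntegral A (inertiaSub A B Γ) := Algebra.IsIntegral.of_finite A _
  Algebra.IsIntegral.isLocalHom A _

theorem finite_residueField_ideal (R : Type*) [CommRing R] [IsLocalRing R]
    [Finite (ResidueField R)] : Finite (maximalIdeal R).ResidueField :=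
  haveI : Finite (R ⧸ maximalIdeal R) := ‹Finite (ResidueField R)›
  Finite.of_surjective _ (maximalIdeal R).bijective_algebraMap_quotient_residueField.surjective

theorem finite_residueField_inertiaSub [Finite (ResidueField A)] :
    Finite (ResidueField (inertiaSub A B Γ)) := by
  have : Module.Finite (ResidueField A) (ResidueField (inertiaSub A B Γ)) := inferInstance
  exact Module.finite_of_finite (ResidueField A)

/-- `|Γ₀| = e(B/A)`. -/
theorem card_inertiaGp_eq [Finite (ResidueField A)] :
    Nat.card (inertiaGp B Γ) = (maximalIdeal B).ramificationIdx A := by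
  have := isGaloisGroup_base A B Γ
  have := finite_residueField_ideal A
  rw [Ideal.card_inertia_eq_ramificationIdxIn (G := Γ) (maximalIdeal A) (maximalIdeal B),
    Ideal.ramificationIdxIn_eq_ramificationIdx (maximalIdeal A) (maximalIdeal B) Γ]

/-- `|Γ₀| = e(B/B')`. -/
theorem card_inertiaGp_eq' [Finite (ResidueField A)] :
    Nat.card (inertiaGp B Γ) = (maximalIdeal B).ramificationIdx (inertiaSub A B Γ) := by
  have := isGaloisGroup_inertia A B Γ
  have := finite_residueField_inertiaSub A B Γ
  have := finite_residueField_ideal (inertiaSub A B Γ)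
  have h := Ideal.card_inertia_eq_ramificationIdxIn (G := inertiaGp B Γ)
    (maximalIdeal (inertiaSub A B Γ)) (maximalIdeal B)
  rw [Ideal.ramificationIdxIn_eq_ramificationIdx (maximalIdeal (inertiaSub A B Γ))
    (maximalIdeal B) (inertiaGp B Γ)] at h
  rw [← h]
  have htop : (maximalIdeal B).inertia (inertiaGp B Γ) = ⊤ := by
    rw [eq_top_iff]
    intro σ _
    exact Ideal.coe_mem_inertia.mp σ.2
  rw [htop]
  exact (Nat.card_congr Subgroup.topEquiv.toEquiv).symm

end Galois

section RamIdx

/-- In a discrete valuation ring `S`, if `p S = 𝔪_S ^ n` then the ramification index is `n`. -/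
theorem ramificationIdx_eq_of_map_eq_pow {R S : Type*} [CommRing R] [CommRing S] [IsDomain S]
    [IsDiscreteValuationRing S] [Algebra R S] (p : Ideal R) [(maximalIdeal S).LiesOver p] {n : ℕ}
    (h : p.map (algebraMap R S) = maximalIdeal S ^ n) :
    (maximalIdeal S).ramificationIdx R = n := by
  have hm0 : maximalIdeal S ≠ ⊥ := IsDiscreteValuationRing.not_a_field S
  have hp0 : p.map (algebraMap R S) ≠ ⊥ := by
    rw [h]
    exact pow_ne_zero n hm0
  rw [Ideal.IsDedekindDomain.ramificationIdx_eq_multiplicity p (maximalIdeal S) hp0, h]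
  refine multiplicity_pow_self hm0 ?_ n
  rw [Ideal.isUnit_iff]
  exact (maximalIdeal.isMaximal S).ne_top

/-- In a discrete valuation ring `S`, `p S = 𝔪_S ^ e(S/R)` when `p S ≠ 0`. -/
theorem map_eq_pow_ramificationIdx {R S : Type*} [CommRing R] [CommRing S] [IsDomain S]
    [IsDiscreteValuationRing S] [Algebra R S] (p : Ideal R) [(maximalIdeal S).LiesOver p]
    (hp0 : p.map (algebraMap R S) ≠ ⊥) :
    p.map (algebraMap R S) = maximalIdeal S ^ ((maximalIdeal S).ramificationIdx R) := by
  have h06 := (IsDiscreteValuationRing.TFAE S (IsDiscreteValuationRing.not_isField S)).out 0 6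
  have hall : ∀ (I : Ideal S), I ≠ ⊥ → ∃ n : ℕ, I = maximalIdeal S ^ n := h06.mp inferInstance
  obtain ⟨n, hn⟩ := hall _ hp0
  rw [ramificationIdx_eq_of_map_eq_pow p hn, hn]

/-- In a discrete valuation ring, `(x) = 𝔪 ^ n` implies `v(x) = n`. -/
theorem addVal_eq_of_span_eq_maximalIdeal_pow {S : Type*} [CommRing S] [IsDomain S]
    [IsDiscreteValuationRing S] {x : S} {n : ℕ} (h : Ideal.span {x} = maximalIdeal S ^ n) :
    IsDiscreteValuationRing.addVal S x = n := by
  obtain ⟨ϖ, hϖ⟩ := IsDiscreteValuationRing.exists_irreducible S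
  rw [hϖ.maximalIdeal_eq, Ideal.span_singleton_pow, Ideal.span_singleton_eq_span_singleton] at h
  obtain ⟨u, hu⟩ := h.symm
  rw [IsDiscreteValuationRing.addVal_def x u hϖ n]
  rw [← hu, mul_comm]

/-- In a discrete valuation ring, `v(x) = n` implies `(x) = 𝔪 ^ n`. -/
theorem span_eq_maximalIdeal_pow_of_addVal_eq {S : Type*} [CommRing S] [IsDomain S]
    [IsDiscreteValuationRing S] {x : S} {n : ℕ} (h : IsDiscreteValuationRing.addVal S x = n) :
    Ideal.span {x} = maximalIdeal S ^ n := by
  obtain ⟨ϖ, hϖ⟩ := IsDiscreteValuationRing.exists_irreducible S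
  have hx0 : x ≠ 0 := by
    intro h0
    rw [h0, IsDiscreteValuationRing.addVal_zero] at h
    exact ENat.top_ne_natCast n h
  obtain ⟨m, u, hu⟩ := IsDiscreteValuationRing.eq_unit_mul_pow_irreducible hx0 hϖ
  have hm : IsDiscreteValuationRing.addVal S x = m :=
    IsDiscreteValuationRing.addVal_def x u hϖ m hu
  have hmn : m = n := by
    rw [hm] at h
    exact_mod_cast h
  subst hmn
  rw [hϖ.maximalIdeal_eq, Ideal.span_singleton_pow, Ideal.span_singleton_eq_span_singleton, hu]
  exact associated_unit_mul_left _ _ u.isUnit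

end RamIdx

section Unram

variable (A B : Type*) [CommRing A] [IsDomain A] [IsDiscreteValuationRing A]
  [CommRing B] [IsDomain B] [IsDiscreteValuationRing B]
  [Algebra A B] [Module.Finite A B] [FaithfulSMul A B]
  (Γ : Type*) [Group Γ] [Finite Γ] [MulSemiringAction Γ B] [SMulCommClass Γ A B]
  [Algebra.IsInvariant A B Γ] [FaithfulSMul Γ B] [Finite (ResidueField A)]

/-- `e(B'/A) = 1`: the inertia-fixed subring is unramified over `A`. -/
theorem ramificationIdx_inertiaSub :
    (maximalIdeal (inertiaSub A B Γ)).ramificationIdx A = 1 := by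
  have h1 := card_inertiaGp_eq A B Γ
  have h2 := card_inertiaGp_eq' A B Γ
  have h3 := Ideal.ramificationIdx_tower (R := A) (maximalIdeal (inertiaSub A B Γ))
    (maximalIdeal B)
  have hpos : 0 < (maximalIdeal B).ramificationIdx A := Ideal.ramificationIdx_pos _ _
  rw [← h1] at h3 hpos
  rw [← h2] at h3
  have h4 : 1 * Nat.card (inertiaGp B Γ) =
      (maximalIdeal (inertiaSub A B Γ)).ramificationIdx A * Nat.card (inertiaGp B Γ) := by
    rw [one_mul]
    exact h3
  exact (Nat.eq_of_mul_eq_mul_right hpos h4).symm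

/-- `𝔪_A B' = 𝔪_{B'}`. -/
theorem map_maximalIdeal_inertiaSub :
    (maximalIdeal A).map (algebraMap A (inertiaSub A B Γ)) = maximalIdeal (inertiaSub A B Γ) := by
  have hinj : Function.Injective (algebraMap A (inertiaSub A B Γ)) := by
    intro x y hxy
    apply FaithfulSMul.algebraMap_injective A B
    have := congrArg (inertiaSub A B Γ).val hxy
    simpa using this
  have hp0 : (maximalIdeal A).map (algebraMap A (inertiaSub A B Γ)) ≠ ⊥ := by
    rw [Ne, Ideal.map_eq_bot_iff_of_injective hinj]
    exact IsDiscreteValuationRing.not_a_field A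
  have := map_eq_pow_ramificationIdx (S := inertiaSub A B Γ) (maximalIdeal A) hp0
  rw [this, ramificationIdx_inertiaSub, pow_one]

/-- `v_B(b) = e · v_{B'}(b)` for `b ∈ B'`, where `𝔪_A B = 𝔪_B ^ e`. -/
theorem addVal_coe_inertiaSub {e : ℕ}
    (he : (maximalIdeal A).map (algebraMap A B) = maximalIdeal B ^ e) (b : inertiaSub A B Γ) :
    IsDiscreteValuationRing.addVal B (b : B) =
      e • IsDiscreteValuationRing.addVal (inertiaSub A B Γ) b := by
  obtain ⟨ϖ, hϖ⟩ := IsDiscreteValuationRing.exists_irreducible A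
  have hm := map_maximalIdeal_inertiaSub A B Γ
  rw [hϖ.maximalIdeal_eq, Ideal.map_span, Set.image_singleton] at hm he
  -- `ϖ` is a uniformizer of `B'`
  have hirr : Irreducible (algebraMap A (inertiaSub A B Γ) ϖ) := by
    rw [IsDiscreteValuationRing.irreducible_iff_uniformizer, ← hm]
  have hvB : IsDiscreteValuationRing.addVal B (algebraMap A B ϖ) = e :=
    addVal_eq_of_span_eq_maximalIdeal_pow he
  have he0 : e ≠ 0 := by
    rintro rfl
    rw [pow_zero, Ideal.one_eq_top, Ideal.span_singleton_eq_top] at he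
    exact not_isUnit_algebraMap_of_mem A B hϖ.not_isUnit he
  by_cases hb : b = 0
  · subst hb
    simp [he0]
  obtain ⟨n, u, hu⟩ := IsDiscreteValuationRing.eq_unit_mul_pow_irreducible hb hirr
  rw [IsDiscreteValuationRing.addVal_def b u hirr n hu, hu]
  have hunit : IsUnit ((u : inertiaSub A B Γ) : B) := u.isUnit.map (inertiaSub A B Γ).val
  have h1 : (((u : inertiaSub A B Γ) * algebraMap A (inertiaSub A B Γ) ϖ ^ n :
      inertiaSub A B Γ) : B) = ((u : inertiaSub A B Γ) : B) * (algebraMap A B ϖ) ^ n := by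
    simp
  rw [h1, IsDiscreteValuationRing.addVal_mul, IsDiscreteValuationRing.addVal_pow, hvB,
    IsDiscreteValuationRing.addVal_eq_zero_iff.mpr hunit, zero_add]
  simp [mul_comm]

open scoped Pointwise in
theorem inertia_inertiaGp_eq_top :
    (maximalIdeal B).inertia (inertiaGp B Γ) = ⊤ := by
  rw [eq_top_iff]
  intro σ _
  exact Ideal.coe_mem_inertia.mp σ.2

open scoped Pointwise in
/-- `f(B/B') = 1`. -/
theorem inertiaDeg_inertiaSub :
    (maximalIdeal B).inertiaDeg (inertiaSub A B Γ) = 1 := by
  have := isGaloisGroup_inertia A B Γ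
  have := finite_residueField_inertiaSub A B Γ
  have := finite_residueField_ideal (inertiaSub A B Γ)
  have h := Ideal.card_stabilizer_eq_card_inertia_mul_finrank (G := inertiaGp B Γ)
    (maximalIdeal (inertiaSub A B Γ)) (maximalIdeal B)
  have hle := Ideal.inertia_le_stabilizer (M := inertiaGp B Γ) (maximalIdeal B)
  have heq := le_antisymm hle (by rw [inertia_inertiaGp_eq_top B Γ]; exact le_top)
  rw [← heq, inertia_inertiaGp_eq_top B Γ] at h
  have hpos : 0 < Nat.card (⊤ : Subgroup (inertiaGp B Γ)) := Nat.card_pos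
  have h4 : Nat.card (⊤ : Subgroup (inertiaGp B Γ)) * 1 =
      Nat.card (⊤ : Subgroup (inertiaGp B Γ)) *
        (maximalIdeal B).inertiaDeg (inertiaSub A B Γ) := by
    rw [mul_one]
    exact h
  exact (Nat.eq_of_mul_eq_mul_left hpos h4).symm

/-- **hres**: the residue fields of `B'` and `B` coincide: every `b ∈ B` is congruent modulo
`𝔪_B` to an element of `B'`. -/
theorem exists_sub_mem_maximalIdeal (b : B) :
    ∃ a : inertiaSub A B Γ, b - (a : B) ∈ maximalIdeal B := by
  have h1 := inertiaDeg_inertiaSub A B Γ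
  rw [Ideal.inertiaDeg_eq_of_isMaximal (maximalIdeal (inertiaSub A B Γ)) (maximalIdeal B)] at h1
  let : Field (inertiaSub A B Γ ⧸ maximalIdeal (inertiaSub A B Γ)) := Ideal.Quotient.field _
  let : Field (B ⧸ maximalIdeal B) := Ideal.Quotient.field _
  have h2 := Subalgebra.bot_eq_top_of_finrank_eq_one h1
  have h3 : Ideal.Quotient.mk (maximalIdeal B) b ∈
      (⊥ : Subalgebra (inertiaSub A B Γ ⧸ maximalIdeal (inertiaSub A B Γ))
        (B ⧸ maximalIdeal B)) := by
    rw [h2]
    exact Algebra.mem_top
  rw [Algebra.mem_bot] at h3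
  obtain ⟨x, hx⟩ := h3
  obtain ⟨a, rfl⟩ := Ideal.Quotient.mk_surjective x
  refine ⟨a, ?_⟩
  rw [← Ideal.Quotient.eq]
  rw [← hx]
  rfl

end Unram

end Fermat.Agent.S56.H287
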