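import Fermat.Agent.S56.FL.LMSpec
import Fermat.Agent.S56.H176.FLDStruct
import Fermat.Agent.S56.H287.StructInertia

/-!
# S56 / LocalModel / STRUCT (helper287): `FL.StructStatement`

`struct : FL.StructStatement`, assembled from

* `H287/StructInertia.lean` — the inertia-fixed subring `B' = B^{Γ₀}` is a discrete valuation
  ring, unramified over `A` (`𝔪_{B'} = (p)`), with the same residue field as `B`;
* `H176/FLDStruct.lean` (helper176) — `FLD_struct_glue`: the Eisenstein presentation of `B` over
  an unramified intermediate discrete valuation ring with the same residue field, and the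
  different bound.
-/

set_option autoImplicit false

open IsLocalRing

namespace Fermat.Agent.S56.H287

/-- **STRUCT**: the frozen leaf `FL.StructStatement`. -/
theorem struct : Fermat.Agent.S56.FL.StructStatement := by
  intro p _ A B _ _ _ _ _ _ _ _ _ _ Γ _ _ _ _ _ _ hA hκ e he
  haveI : Finite (ResidueField A) :=
    Nat.finite_of_card_ne_zero (by rw [hκ]; exact (Fact.out : p.Prime).ne_zero)
  have hB₁ : maximalIdeal (inertiaSub A B Γ) = Ideal.span {(p : inertiaSub A B Γ)} := by
    rw [← map_maximalIdeal_inertiaSub A B Γ, hA, Ideal.map_span, Set.image_singleton,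
      map_natCast]
  obtain ⟨ϖ, G, h⟩ := H176.FLD_struct_glue p (A := A) (B₁ := inertiaSub A B Γ) (B := B) hA hB₁
    (exists_sub_mem_maximalIdeal A B Γ) e he
  exact ⟨(algebraMap (inertiaSub A B Γ) B).range, ϖ, G, h⟩

end Fermat.Agent.S56.H287
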